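/-
T1B / brick H, slice H-RES (helper2): the two characteristic-zero residue slices `Hol13.RES1 N` and
`Hol13.RES2 N` of `Hol13/Plan.lean`, VERBATIM, as wrappers of helper49's `HRes49/Inst.lean`
(`coeff_zero_eq_zero_of_regular_away'`, `coeff_zero_mul_dlog_eq`) and helper79's
`HForm79.thetaJ_eq_theta_jF` (`thetaJ = θ(j)`).

* `res1 N : Hol13.RES1 N` : `coeff₀ ((h θ(j)) f) = 0` for `h dj` regular and `f` regular away from `∞`;
* `res2 N : Hol13.RES2 N` : `coeff₀ (dlog u · f) = - ∑_{z ≠ ∞} ord_z(u) f(z)` for `f` regular away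
  from `∞`;
* `resinf N x` : `res_∞ (x dj) = coeff₀ (x θ(j))` (the local formula at `∞`, for the record).
-/
import Mathlib
import Fermat.Agent.T1B.Hol13.Plan
import Fermat.Agent.T1B.HRes49.Inst
import Fermat.Agent.T1B.HForm79.Theta

set_option autoImplicit false

noncomputable section

namespace Fermat.Agent.T1B.HRes2

open AlgebraicCurve KaehlerDifferential HahnSeries
open Fermat.Agent.X0 Fermat.Agent.X0.FF Fermat.Agent.RR
open Fermat.Agent.IG.PR.Theta20 Fermat.Agent.MW.NCA61.InfPlace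
open Fermat.Agent.T1B.Hecke7 Fermat.Agent.T1B.Hol13 Fermat.Agent.T1B.HRes49

variable (N : ℕ) [NeZero N]

/-- **RESINF**: `res_∞ (x dj) = coeff₀ (x · θ(j))`. -/
theorem resinf (x : FF N) :
    Fermat.Agent.RR.LocalResMain.residue (isGenJ N) (inftyPlace N) (x • D Kbar (FF N) (jF N)) =
      ((x : LaurentSeries Kbar) * Fermat.Agent.S20.LowDJ.thetaJ).coeff 0 := by
  rw [Fermat.Agent.T1B.HForm79.thetaJ_eq_theta_jF N]
  exact residue_infty_smul_D N x (jF N)

/-- **H-RES1**. -/
theorem res1 : RES1 N := by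
  intro h f hreg hf
  have key := coeff_zero_eq_zero_of_regular_away' N f h (jF N) hf (fun z _ => hreg z)
  unfold pair
  rw [Fermat.Agent.T1B.HForm79.thetaJ_eq_theta_jF N, mul_comm]
  exact key

/-- **H-RES2**. -/
theorem res2 : RES2 N := by
  intro u f hu hf
  have key := coeff_zero_mul_dlog_eq N hu hf
  unfold pair
  rw [mul_comm, key]
  congr 1
  rw [← finsum_subtype_eq_finsum_cond
    (f := fun z : Place Kbar (FF N) => (z.ord u : Kbar) * valueAt N z f)
    (fun z => z ≠ inftyPlace N)]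
  refine finsum_congr (fun z => ?_)
  rw [valueAt_eq_valueHom N z.1 (hf z.1 z.2), zsmul_eq_mul]

end Fermat.Agent.T1B.HRes2
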